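import Fermat.Agent.H13.Cft.Interfaces
import Fermat.Agent.H19.Cft.HomologyApi

/-!
# P-CFT / FR-SCAL (row 599, helper33), part 1: additive maps of complexes over different rings

`AddChainMap K K'` : a family of ADDITIVE maps `Kⁿ →+ K'ⁿ` commuting with the differentials, where
`K` is a cochain complex of `k`-modules and `K'` a cochain complex of `k'`-modules
(`k`, `k'` arbitrary commutative rings).

* `AddChainMap.hAdd a n : Hⁿ(K) →+ Hⁿ(K')`, with `hAdd a n [x] = [a x]` (`hAdd_hMk`);
  functorial (`hAdd_id`, `hAdd_comp`), equal to `homologyMap` for genuine morphisms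
  (`hAdd_ofHom`), bijective if all components are (`hAdd_bijective`, `hAddEquiv`).
* `AddChainMap.hAdd_δ` : compatibility with the connecting homomorphisms of short exact
  sequences of complexes; `δ_hMk` : the cocycle formula for `δ` in terms of `hMk`.
* `AddChainMap.cone` : the induced additive map on shifted cones.
-/

set_option autoImplicit false

universe u

open CategoryTheory

namespace Fermat.Agent.H33.Cft

open Fermat.Agent.H13.Cft Fermat.Agent.H19

noncomputable section

variable {k k' k'' : Type u} [CommRing k] [CommRing k'] [CommRing k'']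

/-- An additive map of cochain complexes over possibly different rings. -/
structure AddChainMap (K : CochainComplex (ModuleCat.{u} k) ℕ)
    (K' : CochainComplex (ModuleCat.{u} k') ℕ) where
  /-- the components -/
  f : ∀ n, K.X n →+ K'.X n
  /-- compatibility with the differentials -/
  comm : ∀ (n : ℕ) (x : K.X n),
    (K'.d n (n + 1)).hom (f n x) = f (n + 1) ((K.d n (n + 1)).hom x)

namespace AddChainMap

variable {K : CochainComplex (ModuleCat.{u} k) ℕ} {K' : CochainComplex (ModuleCat.{u} k') ℕ}
  {K'' : CochainComplex (ModuleCat.{u} k'') ℕ}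

@[ext] theorem ext' {a b : AddChainMap K K'} (h : ∀ n x, a.f n x = b.f n x) : a = b := by
  cases a; cases b
  congr
  funext n
  exact AddMonoidHom.ext (h n)

/-- the identity -/
def id (K : CochainComplex (ModuleCat.{u} k) ℕ) : AddChainMap K K where
  f _ := AddMonoidHom.id _
  comm _ _ := rfl

/-- composition -/
def comp (b : AddChainMap K' K'') (a : AddChainMap K K') : AddChainMap K K'' where
  f n := (b.f n).comp (a.f n)
  comm n x := by
    simp only [AddMonoidHom.comp_apply]
    rw [b.comm, a.comm]

@[simp] theorem id_f (n : ℕ) (x : K.X n) : (AddChainMap.id K).f n x = x := rfl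

@[simp] theorem comp_f (b : AddChainMap K' K'') (a : AddChainMap K K') (n : ℕ) (x : K.X n) :
    (b.comp a).f n x = b.f n (a.f n x) := rfl

/-- a morphism of complexes (same ring) as an additive chain map -/
def ofHom {L : CochainComplex (ModuleCat.{u} k) ℕ} (φ : K ⟶ L) : AddChainMap K L where
  f n := (φ.f n).hom.toAddMonoidHom
  comm n x := by
    have := LinearMap.congr_fun (congrArg ModuleCat.Hom.hom (φ.comm n (n + 1))) x
    exact this

@[simp] theorem ofHom_f {L : CochainComplex (ModuleCat.{u} k) ℕ} (φ : K ⟶ L) (n : ℕ)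
    (x : K.X n) : (ofHom φ).f n x = (φ.f n).hom x := rfl

theorem map_cocycle (a : AddChainMap K K') (n : ℕ) (x : K.X n)
    (hx : (K.d n (n + 1)).hom x = 0) : (K'.d n (n + 1)).hom (a.f n x) = 0 := by
  rw [a.comm, hx, map_zero]

theorem hMk_map_congr (a : AddChainMap K K') (n : ℕ) (x y : K.X n)
    (hx : (K.d n (n + 1)).hom x = 0) (hy : (K.d n (n + 1)).hom y = 0)
    (h : hMk K n x hx = hMk K n y hy) :
    hMk K' n (a.f n x) (a.map_cocycle n x hx) = hMk K' n (a.f n y) (a.map_cocycle n y hy) := by
  cases n with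
  | zero =>
    rw [hapi_hMk_zero_eq_iff] at h
    subst h
    rfl
  | succ n =>
    rw [hapi_hMk_succ_eq_iff] at h ⊢
    obtain ⟨z, hz⟩ := h
    exact ⟨a.f n z, by rw [a.comm, hz, map_sub]⟩

/-- the underlying function of `hAdd` -/
def hFun (a : AddChainMap K K') (n : ℕ) (z : K.homology n) : K'.homology n :=
  hMk K' n (a.f n (Classical.choose (hapi_hMk_surjective K n z)))
    (a.map_cocycle n _ (Classical.choose (Classical.choose_spec (hapi_hMk_surjective K n z))))

theorem hFun_hMk (a : AddChainMap K K') (n : ℕ) (x : K.X n)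
    (hx : (K.d n (n + 1)).hom x = 0) :
    hFun a n (hMk K n x hx) = hMk K' n (a.f n x) (a.map_cocycle n x hx) := by
  unfold hFun
  apply hMk_map_congr
  exact Classical.choose_spec (Classical.choose_spec (hapi_hMk_surjective K n (hMk K n x hx)))

/-- **the map induced on cohomology by an additive chain map** -/
def hAdd (a : AddChainMap K K') (n : ℕ) : K.homology n →+ K'.homology n where
  toFun := hFun a n
  map_zero' := by
    have h0 : (K.d n (n + 1)).hom (0 : K.X n) = 0 := map_zero _
    rw [← hapi_hMk_zero K n h0, hFun_hMk]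
    have : a.f n 0 = 0 := map_zero _
    rw [hapi_hMk_congr K' n this _ (map_zero _)]
    exact hapi_hMk_zero K' n _
  map_add' := by
    intro z w
    obtain ⟨x, hx, rfl⟩ := hapi_hMk_surjective K n z
    obtain ⟨y, hy, rfl⟩ := hapi_hMk_surjective K n w
    have hxy : (K.d n (n + 1)).hom (x + y) = 0 := by rw [map_add, hx, hy, add_zero]
    rw [← hapi_hMk_add K n x y hx hy hxy, hFun_hMk, hFun_hMk, hFun_hMk]
    have : a.f n (x + y) = a.f n x + a.f n y := map_add _ _ _
    have hxy' : (K'.d n (n + 1)).hom (a.f n x + a.f n y) = 0 := by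
      rw [← this]; exact a.map_cocycle n _ hxy
    rw [hapi_hMk_congr K' n this _ hxy']
    exact hapi_hMk_add K' n _ _ _ _ _

@[simp] theorem hAdd_hMk (a : AddChainMap K K') (n : ℕ) (x : K.X n)
    (hx : (K.d n (n + 1)).hom x = 0) :
    hAdd a n (hMk K n x hx) = hMk K' n (a.f n x) (a.map_cocycle n x hx) :=
  hFun_hMk a n x hx

theorem hAdd_id (n : ℕ) (z : K.homology n) : hAdd (AddChainMap.id K) n z = z := by
  obtain ⟨x, hx, rfl⟩ := hapi_hMk_surjective K n z
  rw [hAdd_hMk]
  rfl

theorem hAdd_comp (b : AddChainMap K' K'') (a : AddChainMap K K') (n : ℕ)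
    (z : K.homology n) : hAdd (b.comp a) n z = hAdd b n (hAdd a n z) := by
  obtain ⟨x, hx, rfl⟩ := hapi_hMk_surjective K n z
  rw [hAdd_hMk, hAdd_hMk, hAdd_hMk]
  rfl

theorem hAdd_congr {a b : AddChainMap K K'} (h : ∀ n x, a.f n x = b.f n x) (n : ℕ)
    (z : K.homology n) : hAdd a n z = hAdd b n z := by
  rw [AddChainMap.ext' h]

/-- for a genuine morphism of complexes, `hAdd` is `homologyMap` -/
theorem hAdd_ofHom {L : CochainComplex (ModuleCat.{u} k) ℕ} (φ : K ⟶ L) (n : ℕ)
    (z : K.homology n) :
    hAdd (ofHom φ) n z = (HomologicalComplex.homologyMap φ n).hom z := by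
  obtain ⟨x, hx, rfl⟩ := hapi_hMk_surjective K n z
  rw [hAdd_hMk, hapi_homologyMap_hMk' K n L φ x hx]
  rfl

/-- the inverse of a degreewise bijective additive chain map -/
def inv (a : AddChainMap K K') (ha : ∀ n, Function.Bijective (a.f n)) : AddChainMap K' K where
  f n := ((AddEquiv.ofBijective (a.f n) (ha n)).symm : K'.X n →+ K.X n)
  comm n y := by
    apply (ha (n + 1)).1
    rw [← a.comm]
    have h1 : ∀ (m : ℕ) (w : K'.X m),
        a.f m ((AddEquiv.ofBijective (a.f m) (ha m)).symm w) = w :=
      fun m w => (AddEquiv.ofBijective (a.f m) (ha m)).apply_symm_apply w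
    show (K'.d n (n + 1)).hom (a.f n ((AddEquiv.ofBijective (a.f n) (ha n)).symm y)) =
      a.f (n + 1) ((AddEquiv.ofBijective (a.f (n + 1)) (ha (n + 1))).symm
        ((K'.d n (n + 1)).hom y))
    rw [h1, h1]

theorem inv_f_apply (a : AddChainMap K K') (ha : ∀ n, Function.Bijective (a.f n)) (n : ℕ)
    (x : K.X n) : (a.inv ha).f n (a.f n x) = x :=
  (AddEquiv.ofBijective (a.f n) (ha n)).symm_apply_apply x

theorem f_inv_apply (a : AddChainMap K K') (ha : ∀ n, Function.Bijective (a.f n)) (n : ℕ)
    (y : K'.X n) : a.f n ((a.inv ha).f n y) = y :=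
  (AddEquiv.ofBijective (a.f n) (ha n)).apply_symm_apply y

/-- a degreewise bijective additive chain map induces isomorphisms on cohomology -/
def hAddEquiv (a : AddChainMap K K') (ha : ∀ n, Function.Bijective (a.f n)) (n : ℕ) :
    K.homology n ≃+ K'.homology n where
  toFun := hAdd a n
  invFun := hAdd (a.inv ha) n
  left_inv z := by
    rw [← hAdd_comp]
    rw [hAdd_congr (b := AddChainMap.id K) (fun m x => by
      simp only [comp_f, id_f]; exact a.inv_f_apply ha m x)]
    exact hAdd_id n z
  right_inv z := by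
    rw [← hAdd_comp]
    rw [hAdd_congr (b := AddChainMap.id K') (fun m x => by
      simp only [comp_f, id_f]; exact a.f_inv_apply ha m x)]
    exact hAdd_id n z
  map_add' := map_add _

@[simp] theorem hAddEquiv_apply (a : AddChainMap K K') (ha : ∀ n, Function.Bijective (a.f n))
    (n : ℕ) (z : K.homology n) : hAddEquiv a ha n z = hAdd a n z := rfl

theorem hAdd_bijective (a : AddChainMap K K') (ha : ∀ n, Function.Bijective (a.f n)) (n : ℕ) :
    Function.Bijective (hAdd a n) :=
  (hAddEquiv a ha n).bijective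

end AddChainMap

end

end Fermat.Agent.H33.Cft
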