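import Fermat.Agent.H33.Cft.AddChain

/-!
# P-CFT / FR-SCAL (row 599, helper33), part 2: connecting homomorphisms and cones

* `δ_hMk` : the cocycle formula for Mathlib's connecting homomorphism `hS.δ n (n+1) rfl` of a
  short exact sequence of cochain complexes of modules, in terms of `hMk`.
* `exists_δ_data` : existence of the data `(x₂, x₁)` of the cocycle formula.
* `AddChainMap.hAdd_δ` : additive chain maps between two short exact sequences of complexes
  (over different rings) commute with the connecting homomorphisms.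
* `AddChainMap.cone` : the additive chain map induced on shifted cones by a commutative square.
-/

set_option autoImplicit false

universe u

open CategoryTheory

namespace Fermat.Agent.H33.Cft

open Fermat.Agent.H13.Cft Fermat.Agent.H19

noncomputable section

variable {k k' : Type u} [CommRing k] [CommRing k']

section delta

variable {S : ShortComplex (CochainComplex (ModuleCat.{u} k) ℕ)}

/-- the cocycle formula for the connecting homomorphism -/
theorem δ_hMk (hS : S.ShortExact) (n : ℕ)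
    (x₃ : S.X₃.X n) (hx₃ : (S.X₃.d n (n + 1)).hom x₃ = 0)
    (x₂ : S.X₂.X n) (hx₂ : (S.g.f n).hom x₂ = x₃)
    (x₁ : S.X₁.X (n + 1)) (hx₁ : (S.f.f (n + 1)).hom x₁ = (S.X₂.d n (n + 1)).hom x₂)
    (h1 : (S.X₁.d (n + 1) (n + 2)).hom x₁ = 0) :
    (hS.δ n (n + 1) rfl).hom (hMk S.X₃ n x₃ hx₃) = hMk S.X₁ (n + 1) x₁ h1 := by
  have := hS.δ_apply n (n + 1) rfl x₃ hx₃ x₂ hx₂ x₁ hx₁ (n + 2) (by simp)
  exact this

theorem surjective_g_f (hS : S.ShortExact) (n : ℕ) : Function.Surjective (S.g.f n).hom := by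
  have h := (HomologicalComplex.shortExact_iff_degreewise_shortExact S).1 hS n
  exact h.moduleCat_surjective_g

theorem injective_f_f (hS : S.ShortExact) (n : ℕ) : Function.Injective (S.f.f n).hom := by
  have h := (HomologicalComplex.shortExact_iff_degreewise_shortExact S).1 hS n
  exact h.moduleCat_injective_f

theorem exact_f_g_f (hS : S.ShortExact) (n : ℕ) (x₂ : S.X₂.X n)
    (hx₂ : (S.g.f n).hom x₂ = 0) : ∃ x₁ : S.X₁.X n, (S.f.f n).hom x₁ = x₂ := by
  have h := (HomologicalComplex.shortExact_iff_degreewise_shortExact S).1 hS n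
  exact (ShortComplex.moduleCat_exact_iff _).1 h.exact x₂ hx₂

theorem g_f_comp_apply (n : ℕ) (x₁ : S.X₁.X n) : (S.g.f n).hom ((S.f.f n).hom x₁) = 0 := by
  have h := congrArg (fun φ => (HomologicalComplex.Hom.f φ n)) S.zero
  have h2 := LinearMap.congr_fun (congrArg ModuleCat.Hom.hom h) x₁
  exact h2

/-- the data of the cocycle formula always exist -/
theorem exists_δ_data (hS : S.ShortExact) (n : ℕ)
    (x₃ : S.X₃.X n) (hx₃ : (S.X₃.d n (n + 1)).hom x₃ = 0) :
    ∃ (x₂ : S.X₂.X n) (x₁ : S.X₁.X (n + 1)), (S.g.f n).hom x₂ = x₃ ∧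
      (S.f.f (n + 1)).hom x₁ = (S.X₂.d n (n + 1)).hom x₂ ∧
      (S.X₁.d (n + 1) (n + 2)).hom x₁ = 0 := by
  obtain ⟨x₂, hx₂⟩ := surjective_g_f hS n x₃
  have hg : (S.g.f (n + 1)).hom ((S.X₂.d n (n + 1)).hom x₂) = 0 := by
    have h := LinearMap.congr_fun (congrArg ModuleCat.Hom.hom (S.g.comm n (n + 1))) x₂
    have h' : (S.X₃.d n (n + 1)).hom ((S.g.f n).hom x₂) =
        (S.g.f (n + 1)).hom ((S.X₂.d n (n + 1)).hom x₂) := h
    rw [← h', hx₂, hx₃]
  obtain ⟨x₁, hx₁⟩ := exact_f_g_f hS (n + 1) _ hg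
  refine ⟨x₂, x₁, hx₂, hx₁, ?_⟩
  apply injective_f_f hS (n + 2)
  have h := LinearMap.congr_fun (congrArg ModuleCat.Hom.hom (S.f.comm (n + 1) (n + 2))) x₁
  have h' : (S.X₂.d (n + 1) (n + 2)).hom ((S.f.f (n + 1)).hom x₁) =
      (S.f.f (n + 2)).hom ((S.X₁.d (n + 1) (n + 2)).hom x₁) := h
  rw [← h', hx₁, map_zero]
  exact hapi_d_d S.X₂ n x₂

end delta

namespace AddChainMap

/-- **compatibility of additive chain maps with connecting homomorphisms** -/
theorem hAdd_δ {S : ShortComplex (CochainComplex (ModuleCat.{u} k) ℕ)}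
    {S' : ShortComplex (CochainComplex (ModuleCat.{u} k') ℕ)}
    (hS : S.ShortExact) (hS' : S'.ShortExact)
    (a₁ : AddChainMap S.X₁ S'.X₁) (a₂ : AddChainMap S.X₂ S'.X₂) (a₃ : AddChainMap S.X₃ S'.X₃)
    (hf : ∀ n x, (S'.f.f n).hom (a₁.f n x) = a₂.f n ((S.f.f n).hom x))
    (hg : ∀ n x, (S'.g.f n).hom (a₂.f n x) = a₃.f n ((S.g.f n).hom x))
    (n : ℕ) (z : S.X₃.homology n) :
    hAdd a₁ (n + 1) ((hS.δ n (n + 1) rfl).hom z) =
      (hS'.δ n (n + 1) rfl).hom (hAdd a₃ n z) := by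
  obtain ⟨x₃, hx₃, rfl⟩ := hapi_hMk_surjective S.X₃ n z
  obtain ⟨x₂, x₁, hx₂, hx₁, h1⟩ := exists_δ_data hS n x₃ hx₃
  rw [δ_hMk hS n x₃ hx₃ x₂ hx₂ x₁ hx₁ h1, hAdd_hMk, hAdd_hMk]
  symm
  refine δ_hMk hS' n _ _ (a₂.f n x₂) ?_ (a₁.f (n + 1) x₁) ?_ _
  · rw [hg, hx₂]
  · rw [hf, hx₁, a₂.comm]

section cone

variable {K L : CochainComplex (ModuleCat.{u} k) ℕ} {K' L' : CochainComplex (ModuleCat.{u} k') ℕ}
  (φ : K ⟶ L) (φ' : K' ⟶ L')

/-- the components of the additive map of cones -/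
def coneF (a : AddChainMap K K') (b : AddChainMap L L') :
    ∀ n, coneX K L n →+ coneX K' L' n
  | 0 => a.f 0
  | n + 1 => AddMonoidHom.prodMap (a.f (n + 1)) (b.f n)

theorem coneF_zero (a : AddChainMap K K') (b : AddChainMap L L') (x : K.X 0) :
    coneF a b 0 x = a.f 0 x := rfl

theorem coneF_succ (a : AddChainMap K K') (b : AddChainMap L L') (n : ℕ) (x : K.X (n + 1))
    (y : L.X n) : coneF a b (n + 1) (x, y) = (a.f (n + 1) x, b.f n y) := rfl

theorem coneF_comm (a : AddChainMap K K') (b : AddChainMap L L')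
    (h : ∀ n x, (φ'.f n).hom (a.f n x) = b.f n ((φ.f n).hom x)) (n : ℕ) (x : coneX K L n) :
    (coneD φ' n).hom (coneF a b n x) = coneF a b (n + 1) ((coneD φ n).hom x) := by
  cases n with
  | zero =>
    have key : ∀ x : K.X 0,
        (coneD φ' 0).hom (coneF a b 0 x) = coneF a b 1 ((coneD φ 0).hom x) := by
      intro x
      have e1 : (coneD φ' 0).hom (coneF a b 0 x) =
          (((K'.d 0 1).hom (a.f 0 x), (φ'.f 0).hom (a.f 0 x)) : K'.X 1 × L'.X 0) := rfl
      have e2 : coneF a b 1 ((coneD φ 0).hom x) =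
          ((a.f 1 ((K.d 0 1).hom x), b.f 0 ((φ.f 0).hom x)) : K'.X 1 × L'.X 0) := rfl
      rw [e1, e2, a.comm, h]
    exact key x
  | succ n =>
    have key : ∀ (x : K.X (n + 1)) (y : L.X n),
        (coneD φ' (n + 1)).hom (coneF a b (n + 1) (x, y)) =
          coneF a b (n + 2) ((coneD φ (n + 1)).hom (x, y)) := by
      intro x y
      have e1 : (coneD φ' (n + 1)).hom (coneF a b (n + 1) (x, y)) =
          (((K'.d (n + 1) (n + 2)).hom (a.f (n + 1) x),
            (φ'.f (n + 1)).hom (a.f (n + 1) x) - (L'.d n (n + 1)).hom (b.f n y)) :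
              K'.X (n + 2) × L'.X (n + 1)) := rfl
      have e2 : coneF a b (n + 2) ((coneD φ (n + 1)).hom (x, y)) =
          ((a.f (n + 2) ((K.d (n + 1) (n + 2)).hom x),
            b.f (n + 1) ((φ.f (n + 1)).hom x - (L.d n (n + 1)).hom y)) :
              K'.X (n + 2) × L'.X (n + 1)) := rfl
      rw [e1, e2, a.comm, h, b.comm, map_sub]
    exact key x.1 x.2

theorem coneShift_d_eq (n : ℕ) : (coneShift φ).d n (n + 1) = coneD φ n :=
  CochainComplex.of_d _ _ n

/-- **the additive chain map induced on shifted cones** by a commutative square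
`φ' ∘ a = b ∘ φ`. -/
def cone (a : AddChainMap K K') (b : AddChainMap L L')
    (h : ∀ n x, (φ'.f n).hom (a.f n x) = b.f n ((φ.f n).hom x)) :
    AddChainMap (coneShift φ) (coneShift φ') where
  f n := coneF a b n
  comm n x := by
    have h1 : (coneShift φ').d n (n + 1) = coneD φ' n := coneShift_d_eq φ' n
    have h2 : (coneShift φ).d n (n + 1) = coneD φ n := coneShift_d_eq φ n
    rw [h1, h2]
    exact coneF_comm φ φ' a b h n x

theorem cone_f_zero (a : AddChainMap K K') (b : AddChainMap L L')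
    (h : ∀ n x, (φ'.f n).hom (a.f n x) = b.f n ((φ.f n).hom x)) (x : K.X 0) :
    (cone φ φ' a b h).f 0 x = a.f 0 x := rfl

theorem cone_f_succ (a : AddChainMap K K') (b : AddChainMap L L')
    (h : ∀ n x, (φ'.f n).hom (a.f n x) = b.f n ((φ.f n).hom x)) (n : ℕ)
    (x : K.X (n + 1)) (y : L.X n) :
    (cone φ φ' a b h).f (n + 1) ((x, y) : K.X (n + 1) × L.X n) =
      ((a.f (n + 1) x, b.f n y) : K'.X (n + 1) × L'.X n) := rfl

theorem cone_bijective (a : AddChainMap K K') (b : AddChainMap L L')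
    (h : ∀ n x, (φ'.f n).hom (a.f n x) = b.f n ((φ.f n).hom x))
    (ha : ∀ n, Function.Bijective (a.f n)) (hb : ∀ n, Function.Bijective (b.f n)) (n : ℕ) :
    Function.Bijective ((cone φ φ' a b h).f n) := by
  cases n with
  | zero => exact ha 0
  | succ n => exact Function.Bijective.prodMap (ha (n + 1)) (hb n)

end cone

end AddChainMap

end

end Fermat.Agent.H33.Cft
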