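import Fermat.Agent.H33.Cft.LvlScal

/-!
# P-CFT / FR-SCAL (row 599, helper33), part 4: change of scalars for the local and the
compact-support complexes

* `arithChangeRing 𝔄 χ₀ hχ₀ : ArithDatum k G` : the arithmetic datum `𝔄 : ArithDatum k' G`
  with the coefficient ring replaced by `k` (and the level character by `χ₀`); all the other
  data (`lvl`, `ι`, `Γ`, `lvlv`, `loc`) are DEFINITIONALLY the same.
  `arithToInt 𝔄 : ArithDatum ℤ G` (universe `0`, trivial character).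
* `locAddChainMap`, `ccAddChainMap` : the additive chain maps induced by an additive equivariant
  map `φ : M₀ →+ M` on `locComplex` and on `ccComplex`; `ccHAddMap : ccH 𝔄₀ M₀ n →+ ccH 𝔄 M n`,
  with `ccHAddEquiv` when `φ` is bijective.
* `resTot_addMap` : compatibility of the additive maps with the total localisation map.
-/

set_option autoImplicit false

universe u

open CategoryTheory groupCohomology

namespace Fermat.Agent.H33.Cft

open Fermat.Agent.H13.Cft Fermat.Agent.H19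

noncomputable section

section general

variable {k k' G : Type u} [CommRing k] [CommRing k'] [Group G]

/-- the same arithmetic datum over another coefficient ring (with a new level character) -/
def arithChangeRing (𝔄 : ArithDatum k' G) (χ₀ : G →* kˣ)
    (hχ₀ : ∃ N ∈ 𝔄.lvl.sets, ∀ s ∈ N, χ₀ s = 1) : ArithDatum k G where
  lvl := 𝔄.lvl
  χ := χ₀
  χ_level := hχ₀
  ι := 𝔄.ι
  fintype := 𝔄.fintype
  Γ := 𝔄.Γ
  group := 𝔄.group
  lvlv := 𝔄.lvlv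
  loc := 𝔄.loc
  compat := 𝔄.compat

variable (𝔄 : ArithDatum k' G) (χ₀ : G →* kˣ) (hχ₀ : ∃ N ∈ 𝔄.lvl.sets, ∀ s ∈ N, χ₀ s = 1)
  {M₀ : Rep.{u} k G} {M : Rep.{u} k' G}

theorem locComplex_d_hom_apply (𝔅 : ArithDatum k G) (A : Rep.{u} k G) (n : ℕ)
    (x : ∀ v, lvlCochains (𝔅.lvlv v) (Rep.res (𝔅.loc v) A) n) (v : 𝔅.ι) :
    (((locComplex 𝔅 A).d n (n + 1)).hom x :
      ∀ v, lvlCochains (𝔅.lvlv v) (Rep.res (𝔅.loc v) A) (n + 1)) v =
      lvlD (𝔅.lvlv v) (Rep.res (𝔅.loc v) A) n (x v) := by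
  have h : (locComplex 𝔅 A).d n (n + 1) = ModuleCat.ofHom (LinearMap.pi fun v =>
      lvlD (𝔅.lvlv v) (Rep.res (𝔅.loc v) A) n ∘ₗ LinearMap.proj v) := by
    simp [locComplex, CochainComplex.of.d]
  rw [h]
  rfl

/-- the local components of the additive map -/
def locAddF (φ : M₀ →+ M) (hφ : ∀ g m, φ (M₀.ρ g m) = M.ρ g (φ m)) (n : ℕ) :
    (∀ v, lvlCochains ((arithChangeRing 𝔄 χ₀ hχ₀).lvlv v)
        (Rep.res ((arithChangeRing 𝔄 χ₀ hχ₀).loc v) M₀) n) →+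
      (∀ v, lvlCochains (𝔄.lvlv v) (Rep.res (𝔄.loc v) M) n) where
  toFun x v := lvlCochainsAddMap (𝔄.lvlv v) (M₀ := Rep.res (𝔄.loc v) M₀)
    (M := Rep.res (𝔄.loc v) M) φ (fun g m => hφ (𝔄.loc v g) m) n (x v)
  map_zero' := by
    funext v
    exact map_zero _
  map_add' x y := by
    funext v
    exact map_add _ _ _

theorem locAddF_comm (φ : M₀ →+ M) (hφ : ∀ g m, φ (M₀.ρ g m) = M.ρ g (φ m)) (n : ℕ)
    (x : ∀ v, lvlCochains ((arithChangeRing 𝔄 χ₀ hχ₀).lvlv v)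
        (Rep.res ((arithChangeRing 𝔄 χ₀ hχ₀).loc v) M₀) n) :
    (((locComplex 𝔄 M).d n (n + 1)).hom (locAddF 𝔄 χ₀ hχ₀ φ hφ n x) :
      ∀ v, lvlCochains (𝔄.lvlv v) (Rep.res (𝔄.loc v) M) (n + 1)) =
      locAddF 𝔄 χ₀ hχ₀ φ hφ (n + 1)
        (((locComplex (arithChangeRing 𝔄 χ₀ hχ₀) M₀).d n (n + 1)).hom x) := by
  funext v
  have h1 := locComplex_d_hom_apply 𝔄 M n (locAddF 𝔄 χ₀ hχ₀ φ hφ n x) v
  have h2 := locComplex_d_hom_apply (arithChangeRing 𝔄 χ₀ hχ₀) M₀ n x v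
  refine h1.trans ?_
  have h3 : (locAddF 𝔄 χ₀ hχ₀ φ hφ (n + 1)
      (((locComplex (arithChangeRing 𝔄 χ₀ hχ₀) M₀).d n (n + 1)).hom x)) v =
      lvlCochainsAddMap (𝔄.lvlv v) (M₀ := Rep.res (𝔄.loc v) M₀)
        (M := Rep.res (𝔄.loc v) M) φ (fun g m => hφ (𝔄.loc v g) m) (n + 1)
        ((((locComplex (arithChangeRing 𝔄 χ₀ hχ₀) M₀).d n (n + 1)).hom x :
          ∀ v, lvlCochains ((arithChangeRing 𝔄 χ₀ hχ₀).lvlv v)
            (Rep.res ((arithChangeRing 𝔄 χ₀ hχ₀).loc v) M₀) (n + 1)) v) := rfl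
  rw [h3, h2]
  exact lvlD_lvlCochainsAddMap (𝔄.lvlv v) (M₀ := Rep.res (𝔄.loc v) M₀)
    (M := Rep.res (𝔄.loc v) M) φ (fun g m => hφ (𝔄.loc v g) m) n (x v)

/-- the additive chain map on the product of the local level complexes -/
def locAddChainMap (φ : M₀ →+ M) (hφ : ∀ g m, φ (M₀.ρ g m) = M.ρ g (φ m)) :
    AddChainMap (locComplex (arithChangeRing 𝔄 χ₀ hχ₀) M₀) (locComplex 𝔄 M) where
  f n := locAddF 𝔄 χ₀ hχ₀ φ hφ n
  comm n x := locAddF_comm 𝔄 χ₀ hχ₀ φ hφ n x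

/-- compatibility with the total localisation map -/
theorem resTot_addMap (φ : M₀ →+ M) (hφ : ∀ g m, φ (M₀.ρ g m) = M.ρ g (φ m)) (n : ℕ)
    (x : (lvlComplex (arithChangeRing 𝔄 χ₀ hχ₀).lvl M₀).X n) :
    ((resTot 𝔄 M).f n).hom ((lvlAddChainMap 𝔄.lvl φ hφ).f n x) =
      (locAddChainMap 𝔄 χ₀ hχ₀ φ hφ).f n (((resTot (arithChangeRing 𝔄 χ₀ hχ₀) M₀).f n).hom x) := by
  funext v
  apply Subtype.ext
  funext g
  rfl

/-- the additive chain map on the compact-support complexes -/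
def ccAddChainMap (φ : M₀ →+ M) (hφ : ∀ g m, φ (M₀.ρ g m) = M.ρ g (φ m)) :
    AddChainMap (ccComplex (arithChangeRing 𝔄 χ₀ hχ₀) M₀) (ccComplex 𝔄 M) :=
  AddChainMap.cone (resTot (arithChangeRing 𝔄 χ₀ hχ₀) M₀) (resTot 𝔄 M)
    (lvlAddChainMap 𝔄.lvl φ hφ) (locAddChainMap 𝔄 χ₀ hχ₀ φ hφ)
    (resTot_addMap 𝔄 χ₀ hχ₀ φ hφ)

/-- the additive map on compact-support cohomology -/
def ccHAddMap (φ : M₀ →+ M) (hφ : ∀ g m, φ (M₀.ρ g m) = M.ρ g (φ m)) (n : ℕ) :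
    ccH (arithChangeRing 𝔄 χ₀ hχ₀) M₀ n →+ ccH 𝔄 M n :=
  (ccAddChainMap 𝔄 χ₀ hχ₀ φ hφ).hAdd n

theorem lvlCochainsAddMap_bijective (𝒰 : LevelSys G) (φ : M₀ →+ M)
    (hφ : ∀ g m, φ (M₀.ρ g m) = M.ρ g (φ m)) (hbij : Function.Bijective φ) (n : ℕ) :
    Function.Bijective (lvlCochainsAddMap 𝒰 φ hφ n) := by
  have hinv : ∀ g (y : M), (AddEquiv.ofBijective φ hbij).symm (M.ρ g y) =
      M₀.ρ g ((AddEquiv.ofBijective φ hbij).symm y) := by
    intro g y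
    apply hbij.1
    have h1 : ∀ w : M, φ ((AddEquiv.ofBijective φ hbij).symm w) = w :=
      fun w => (AddEquiv.ofBijective φ hbij).apply_symm_apply w
    rw [hφ, h1, h1]
  constructor
  · intro x y hxy
    apply Subtype.ext
    funext g
    apply hbij.1
    have := congrArg (fun c : lvlCochains 𝒰 M n => c.1 g) hxy
    exact this
  · intro y
    refine ⟨lvlCochainsAddMap 𝒰 ((AddEquiv.ofBijective φ hbij).symm : M →+ M₀) hinv n y, ?_⟩
    apply Subtype.ext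
    funext g
    exact (AddEquiv.ofBijective φ hbij).apply_symm_apply (y.1 g)

theorem locAddChainMap_bijective (φ : M₀ →+ M) (hφ : ∀ g m, φ (M₀.ρ g m) = M.ρ g (φ m))
    (hbij : Function.Bijective φ) (n : ℕ) :
    Function.Bijective ((locAddChainMap 𝔄 χ₀ hχ₀ φ hφ).f n) := by
  have hv : ∀ v, Function.Bijective (lvlCochainsAddMap (𝔄.lvlv v)
      (M₀ := Rep.res (𝔄.loc v) M₀) (M := Rep.res (𝔄.loc v) M) φ
      (fun g m => hφ (𝔄.loc v g) m) n) :=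
    fun v => lvlCochainsAddMap_bijective (𝔄.lvlv v) (M₀ := Rep.res (𝔄.loc v) M₀)
      (M := Rep.res (𝔄.loc v) M) φ (fun g m => hφ (𝔄.loc v g) m) hbij n
  constructor
  · intro x y hxy
    funext v
    exact (hv v).1 (congrFun hxy v)
  · intro y
    choose x hx using fun v => (hv v).2 (y v)
    exact ⟨x, funext hx⟩

/-- compact-support cohomology does not change under a bijective additive equivariant map -/
def ccHAddEquiv (φ : M₀ →+ M) (hφ : ∀ g m, φ (M₀.ρ g m) = M.ρ g (φ m))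
    (hbij : Function.Bijective φ) (n : ℕ) :
    ccH (arithChangeRing 𝔄 χ₀ hχ₀) M₀ n ≃+ ccH 𝔄 M n :=
  AddChainMap.hAddEquiv (ccAddChainMap 𝔄 χ₀ hχ₀ φ hφ)
    (AddChainMap.cone_bijective _ _ _ _ _
      (fun m => lvlCochainsAddMap_bijective 𝔄.lvl φ hφ hbij m)
      (fun m => locAddChainMap_bijective 𝔄 χ₀ hχ₀ φ hφ hbij m)) n

@[simp] theorem ccHAddEquiv_apply (φ : M₀ →+ M) (hφ : ∀ g m, φ (M₀.ρ g m) = M.ρ g (φ m))
    (hbij : Function.Bijective φ) (n : ℕ) (z : ccH (arithChangeRing 𝔄 χ₀ hχ₀) M₀ n) :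
    ccHAddEquiv 𝔄 χ₀ hχ₀ φ hφ hbij n z = ccHAddMap 𝔄 χ₀ hχ₀ φ hφ n z := rfl

end general

section int

variable {k G : Type} [CommRing k] [Group G]

/-- the arithmetic datum over `ℤ` (trivial character) underlying an arithmetic datum -/
def arithToInt (𝔄 : ArithDatum k G) : ArithDatum ℤ G :=
  arithChangeRing 𝔄 (1 : G →* ℤˣ) (by
    obtain ⟨N, hN⟩ := 𝔄.lvl.nonempty
    exact ⟨N, hN, fun _ _ => rfl⟩)

/-- compact-support cohomology over `ℤ` and over `k` agree -/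
def ccHIntEquiv (𝔄 : ArithDatum k G) (M : Rep.{0} k G) (n : ℕ) :
    ccH (arithToInt 𝔄) (intRes M) n ≃+ ccH 𝔄 M n :=
  ccHAddEquiv 𝔄 _ _ (intResToAdd M) (intResToAdd_equivariant M) (intResToAdd_bijective M) n

end int

end

end Fermat.Agent.H33.Cft
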