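import Fermat.Agent.H33.Cft.AddChainDelta

/-!
# P-CFT / FR-SCAL (row 599, helper33), part 3: change of scalars for level cohomology

Setting: `k`, `k'` commutative rings, `G` a group with level system `𝒰`, `M₀ : Rep k G`,
`M : Rep k' G`, `φ : M₀ →+ M` additive with `φ (M₀.ρ g m) = M.ρ g (φ m)`.

* `lvlCochainsAddMap 𝒰 φ hφ n : lvlCochains 𝒰 M₀ n →+ lvlCochains 𝒰 M n`, `x ↦ φ ∘ x`,
  commuting with `lvlD` (`lvlD_lvlCochainsAddMap`); `lvlAddChainMap 𝒰 φ hφ` the additive chain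
  map `lvlComplex 𝒰 M₀ → lvlComplex 𝒰 M`.
* `lvlHAddMap 𝒰 φ hφ n : lvlH 𝒰 M₀ n →+ lvlH 𝒰 M n` with `lvlHAddMap [x] = [φ ∘ x]`
  (`lvlHAddMap_lvlHMk`), functorial (`lvlHAddMap_id`, `lvlHAddMap_comp`), equal to
  `homologyMap (lvlMap 𝒰 f)` for a morphism `f` of representations (`lvlHAddMap_hom`).
* `lvlHAddEquiv`, `lvlHAddMap_bijective` : `φ` bijective ⟹ isomorphism on level cohomology.
* `intRes M : Rep ℤ G` (restriction of scalars to `ℤ`, universe `0`) and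
  `lvlHIntEquiv 𝒰 M n : lvlH 𝒰 (intRes M) n ≃+ lvlH 𝒰 M n`.
* `lvlHAddMap_δ` : compatibility with connecting homomorphisms.
* `lvlResAddMap`-compatibility: `lvlCochainsAddMap` commutes with `lvlRes` (pointwise, `rfl`).
-/

set_option autoImplicit false

universe u

open CategoryTheory groupCohomology

namespace Fermat.Agent.H33.Cft

open Fermat.Agent.H13.Cft Fermat.Agent.H19

noncomputable section

section basic

variable {k k' k'' G : Type u} [CommRing k] [CommRing k'] [CommRing k''] [Group G]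
  {M₀ : Rep.{u} k G} {M : Rep.{u} k' G} {M' : Rep.{u} k'' G}

theorem neg_one_pow_smul_eq_zsmul {R V : Type*} [Ring R] [AddCommGroup V] [Module R V]
    (m : ℕ) (v : V) : ((-1 : R) ^ m) • v = ((-1 : ℤ) ^ m) • v := by
  have : ((-1 : R) ^ m) = (((-1 : ℤ) ^ m : ℤ) : R) := by push_cast; rfl
  rw [this, Int.cast_smul_eq_zsmul]

theorem isLevelAt_addMap (φ : M₀ →+ M) (hφ : ∀ g m, φ (M₀.ρ g m) = M.ρ g (φ m))
    {N : Subgroup G} {n : ℕ} {x : (Fin n → G) → M₀} (hx : IsLevelAt N M₀ x) :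
    IsLevelAt N M (fun g => φ (x g)) :=
  ⟨fun g u hu => congrArg φ (hx.1 g u hu), fun g s hs => by rw [← hφ, hx.2 g s hs]⟩

/-- `x ↦ φ ∘ x` on level cochains -/
def lvlCochainsAddMap (𝒰 : LevelSys G) (φ : M₀ →+ M)
    (hφ : ∀ g m, φ (M₀.ρ g m) = M.ρ g (φ m)) (n : ℕ) :
    lvlCochains 𝒰 M₀ n →+ lvlCochains 𝒰 M n where
  toFun x := ⟨fun g => φ (x.1 g), by
    obtain ⟨N, hN, hx⟩ := x.2
    exact ⟨N, hN, isLevelAt_addMap φ hφ hx⟩⟩
  map_zero' := by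
    apply Subtype.ext
    funext g
    exact map_zero φ
  map_add' x y := by
    apply Subtype.ext
    funext g
    exact map_add φ _ _

@[simp] theorem lvlCochainsAddMap_coe (𝒰 : LevelSys G) (φ : M₀ →+ M)
    (hφ : ∀ g m, φ (M₀.ρ g m) = M.ρ g (φ m)) (n : ℕ) (x : lvlCochains 𝒰 M₀ n)
    (g : Fin n → G) : (lvlCochainsAddMap 𝒰 φ hφ n x).1 g = φ (x.1 g) := rfl

/-- (1) `lvlCochainsAddMap` commutes with the differentials -/
theorem lvlD_lvlCochainsAddMap (𝒰 : LevelSys G) (φ : M₀ →+ M)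
    (hφ : ∀ g m, φ (M₀.ρ g m) = M.ρ g (φ m)) (n : ℕ) (x : lvlCochains 𝒰 M₀ n) :
    lvlD 𝒰 M n (lvlCochainsAddMap 𝒰 φ hφ n x) =
      lvlCochainsAddMap 𝒰 φ hφ (n + 1) (lvlD 𝒰 M₀ n x) := by
  apply Subtype.ext
  funext g
  rw [lvlD_coe, lvlCochainsAddMap_coe, lvlD_coe, inhomogeneousCochains.d_hom_apply,
    inhomogeneousCochains.d_hom_apply, map_add, map_sum, hφ]
  congr 1
  refine Finset.sum_congr rfl fun j _ => ?_
  rw [neg_one_pow_smul_eq_zsmul (R := k'), neg_one_pow_smul_eq_zsmul (R := k), map_zsmul]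
  rfl

/-- the additive chain map `lvlComplex 𝒰 M₀ → lvlComplex 𝒰 M` induced by `φ` -/
def lvlAddChainMap (𝒰 : LevelSys G) (φ : M₀ →+ M)
    (hφ : ∀ g m, φ (M₀.ρ g m) = M.ρ g (φ m)) :
    AddChainMap (lvlComplex 𝒰 M₀) (lvlComplex 𝒰 M) where
  f n := lvlCochainsAddMap 𝒰 φ hφ n
  comm n x := by
    rw [lvlComplex_d_hom_apply, lvlComplex_d_hom_apply]
    exact lvlD_lvlCochainsAddMap 𝒰 φ hφ n x

@[simp] theorem lvlAddChainMap_f (𝒰 : LevelSys G) (φ : M₀ →+ M)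
    (hφ : ∀ g m, φ (M₀.ρ g m) = M.ρ g (φ m)) (n : ℕ) (x : lvlCochains 𝒰 M₀ n) :
    (lvlAddChainMap 𝒰 φ hφ).f n x = lvlCochainsAddMap 𝒰 φ hφ n x := rfl

theorem lvlD_addMap_eq_zero (𝒰 : LevelSys G) (φ : M₀ →+ M)
    (hφ : ∀ g m, φ (M₀.ρ g m) = M.ρ g (φ m)) (n : ℕ) (x : lvlCochains 𝒰 M₀ n)
    (hx : lvlD 𝒰 M₀ n x = 0) : lvlD 𝒰 M n (lvlCochainsAddMap 𝒰 φ hφ n x) = 0 := by
  rw [lvlD_lvlCochainsAddMap, hx, map_zero]

/-- (2) **the additive map on level cohomology induced by an additive equivariant map** -/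
def lvlHAddMap (𝒰 : LevelSys G) (φ : M₀ →+ M)
    (hφ : ∀ g m, φ (M₀.ρ g m) = M.ρ g (φ m)) (n : ℕ) : lvlH 𝒰 M₀ n →+ lvlH 𝒰 M n :=
  (lvlAddChainMap 𝒰 φ hφ).hAdd n

theorem lvlHAddMap_lvlHMk (𝒰 : LevelSys G) (φ : M₀ →+ M)
    (hφ : ∀ g m, φ (M₀.ρ g m) = M.ρ g (φ m)) (n : ℕ) (x : lvlCochains 𝒰 M₀ n)
    (hx : lvlD 𝒰 M₀ n x = 0) :
    lvlHAddMap 𝒰 φ hφ n (lvlHMk 𝒰 M₀ n x hx) =
      lvlHMk 𝒰 M n (lvlCochainsAddMap 𝒰 φ hφ n x) (lvlD_addMap_eq_zero 𝒰 φ hφ n x hx) := by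
  unfold lvlHAddMap lvlHMk
  rw [AddChainMap.hAdd_hMk]
  rfl

theorem lvlHAddMap_id (𝒰 : LevelSys G) (n : ℕ) (z : lvlH 𝒰 M₀ n) :
    lvlHAddMap 𝒰 (AddMonoidHom.id M₀) (fun _ _ => rfl) n z = z := by
  unfold lvlHAddMap
  exact (AddChainMap.hAdd_congr (a := lvlAddChainMap 𝒰 (AddMonoidHom.id M₀) (fun _ _ => rfl))
    (b := AddChainMap.id _) (fun m x => rfl) n z).trans (AddChainMap.hAdd_id n z)

theorem lvlHAddMap_comp (𝒰 : LevelSys G) (φ : M₀ →+ M)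
    (hφ : ∀ g m, φ (M₀.ρ g m) = M.ρ g (φ m)) (ψ : M →+ M')
    (hψ : ∀ g m, ψ (M.ρ g m) = M'.ρ g (ψ m)) (n : ℕ) (z : lvlH 𝒰 M₀ n) :
    lvlHAddMap 𝒰 (ψ.comp φ) (fun g m => by
      simp only [AddMonoidHom.comp_apply]; rw [hφ, hψ]) n z =
      lvlHAddMap 𝒰 ψ hψ n (lvlHAddMap 𝒰 φ hφ n z) := by
  unfold lvlHAddMap
  rw [← AddChainMap.hAdd_comp]
  exact AddChainMap.hAdd_congr (fun m x => rfl) n z

theorem lvlHAddMap_congr (𝒰 : LevelSys G) {φ ψ : M₀ →+ M}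
    (hφ : ∀ g m, φ (M₀.ρ g m) = M.ρ g (φ m)) (hψ : ∀ g m, ψ (M₀.ρ g m) = M.ρ g (ψ m))
    (h : ∀ m, φ m = ψ m) (n : ℕ) (z : lvlH 𝒰 M₀ n) :
    lvlHAddMap 𝒰 φ hφ n z = lvlHAddMap 𝒰 ψ hψ n z := by
  have : φ = ψ := AddMonoidHom.ext h
  subst this
  rfl

/-- for a morphism of representations (same ring), `lvlHAddMap` is `homologyMap (lvlMap f)` -/
theorem lvlHAddMap_hom (𝒰 : LevelSys G) {A B : Rep.{u} k G} (f : A ⟶ B) (n : ℕ)
    (z : lvlH 𝒰 A n) :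
    lvlHAddMap 𝒰 (f.hom.toLinearMap.toAddMonoidHom) (fun g m => Rep.hom_comm_apply f g m) n z =
      (HomologicalComplex.homologyMap (lvlMap 𝒰 f) n).hom z := by
  unfold lvlHAddMap
  rw [← AddChainMap.hAdd_ofHom]
  exact AddChainMap.hAdd_congr (fun m x => rfl) n z

/-- (3) a bijective additive equivariant map induces isomorphisms on level cohomology -/
def lvlHAddEquiv (𝒰 : LevelSys G) (φ : M₀ →+ M)
    (hφ : ∀ g m, φ (M₀.ρ g m) = M.ρ g (φ m)) (hbij : Function.Bijective φ) (n : ℕ) :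
    lvlH 𝒰 M₀ n ≃+ lvlH 𝒰 M n :=
  AddChainMap.hAddEquiv (lvlAddChainMap 𝒰 φ hφ) (fun m => by
    have hinv : ∀ g (y : M), (AddEquiv.ofBijective φ hbij).symm (M.ρ g y) =
        M₀.ρ g ((AddEquiv.ofBijective φ hbij).symm y) := by
      intro g y
      apply hbij.1
      have h1 : ∀ w : M, φ ((AddEquiv.ofBijective φ hbij).symm w) = w :=
        fun w => (AddEquiv.ofBijective φ hbij).apply_symm_apply w
      rw [hφ, h1, h1]
    constructor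
    · intro x y hxy
      apply Subtype.ext
      funext g
      apply hbij.1
      have := congrArg (fun c : lvlCochains 𝒰 M m => c.1 g) hxy
      exact this
    · intro y
      refine ⟨lvlCochainsAddMap 𝒰 ((AddEquiv.ofBijective φ hbij).symm : M →+ M₀) hinv m y, ?_⟩
      apply Subtype.ext
      funext g
      exact (AddEquiv.ofBijective φ hbij).apply_symm_apply (y.1 g)) n

@[simp] theorem lvlHAddEquiv_apply (𝒰 : LevelSys G) (φ : M₀ →+ M)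
    (hφ : ∀ g m, φ (M₀.ρ g m) = M.ρ g (φ m)) (hbij : Function.Bijective φ) (n : ℕ)
    (z : lvlH 𝒰 M₀ n) : lvlHAddEquiv 𝒰 φ hφ hbij n z = lvlHAddMap 𝒰 φ hφ n z := rfl

theorem lvlHAddMap_bijective (𝒰 : LevelSys G) (φ : M₀ →+ M)
    (hφ : ∀ g m, φ (M₀.ρ g m) = M.ρ g (φ m)) (hbij : Function.Bijective φ) (n : ℕ) :
    Function.Bijective (lvlHAddMap 𝒰 φ hφ n) :=
  (lvlHAddEquiv 𝒰 φ hφ hbij n).bijective

/-- (4) **compatibility with connecting homomorphisms**: two short complexes of representations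
(over `k` and over `k'`) whose level complexes are short exact, related by additive equivariant
maps commuting with the maps of the sequences. -/
theorem lvlHAddMap_δ (𝒰 : LevelSys G) (X : ShortComplex (Rep.{u} k G))
    (X' : ShortComplex (Rep.{u} k' G))
    (hS : (X.map (lvlFunctor 𝒰)).ShortExact) (hS' : (X'.map (lvlFunctor 𝒰)).ShortExact)
    (φ₁ : X.X₁ →+ X'.X₁) (hφ₁ : ∀ g m, φ₁ (X.X₁.ρ g m) = X'.X₁.ρ g (φ₁ m))
    (φ₂ : X.X₂ →+ X'.X₂) (hφ₂ : ∀ g m, φ₂ (X.X₂.ρ g m) = X'.X₂.ρ g (φ₂ m))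
    (φ₃ : X.X₃ →+ X'.X₃) (hφ₃ : ∀ g m, φ₃ (X.X₃.ρ g m) = X'.X₃.ρ g (φ₃ m))
    (hf : ∀ m, X'.f.hom (φ₁ m) = φ₂ (X.f.hom m))
    (hg : ∀ m, X'.g.hom (φ₂ m) = φ₃ (X.g.hom m))
    (n : ℕ) (z : lvlH 𝒰 X.X₃ n) :
    lvlHAddMap 𝒰 φ₁ hφ₁ (n + 1) ((hS.δ n (n + 1) rfl).hom z) =
      (hS'.δ n (n + 1) rfl).hom (lvlHAddMap 𝒰 φ₃ hφ₃ n z) := by
  refine AddChainMap.hAdd_δ hS hS' (lvlAddChainMap 𝒰 φ₁ hφ₁) (lvlAddChainMap 𝒰 φ₂ hφ₂)
    (lvlAddChainMap 𝒰 φ₃ hφ₃) ?_ ?_ n z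
  · intro m x
    apply Subtype.ext
    funext g
    exact hf _
  · intro m x
    apply Subtype.ext
    funext g
    exact hg _

end basic

section int

variable {k G : Type} [CommRing k] [Group G]

/-- the underlying `ℤ`-linear representation of a `k`-linear representation -/
def intRepresentation (M : Rep.{0} k G) : Representation ℤ G M.V where
  toFun g := (M.ρ g).toAddMonoidHom.toIntLinearMap
  map_one' := by
    ext v
    simp
  map_mul' g h := by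
    ext v
    simp

/-- restriction of scalars to `ℤ` of a representation -/
def intRes (M : Rep.{0} k G) : Rep.{0} ℤ G := Rep.of (intRepresentation M)

@[simp] theorem intRes_ρ_apply (M : Rep.{0} k G) (g : G) (v : M.V) :
    (intRes M).ρ g v = M.ρ g v := rfl

/-- the identity, as an additive map `intRes M →+ M` -/
def intResToAdd (M : Rep.{0} k G) : (intRes M) →+ M := AddMonoidHom.id M.V

theorem intResToAdd_equivariant (M : Rep.{0} k G) (g : G) (m : intRes M) :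
    intResToAdd M ((intRes M).ρ g m) = M.ρ g (intResToAdd M m) := rfl

theorem intResToAdd_bijective (M : Rep.{0} k G) : Function.Bijective (intResToAdd M) :=
  Function.bijective_id

/-- level cohomology over `ℤ` and over `k` agree -/
def lvlHIntEquiv (𝒰 : LevelSys G) (M : Rep.{0} k G) (n : ℕ) :
    lvlH 𝒰 (intRes M) n ≃+ lvlH 𝒰 M n :=
  lvlHAddEquiv 𝒰 (intResToAdd M) (intResToAdd_equivariant M) (intResToAdd_bijective M) n

theorem lvlHIntEquiv_lvlHMk (𝒰 : LevelSys G) (M : Rep.{0} k G) (n : ℕ)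
    (x : lvlCochains 𝒰 (intRes M) n) (hx : lvlD 𝒰 (intRes M) n x = 0) :
    lvlHIntEquiv 𝒰 M n (lvlHMk 𝒰 (intRes M) n x hx) =
      lvlHMk 𝒰 M n (lvlCochainsAddMap 𝒰 (intResToAdd M) (intResToAdd_equivariant M) n x)
        (lvlD_addMap_eq_zero 𝒰 _ _ n x hx) :=
  lvlHAddMap_lvlHMk 𝒰 _ _ n x hx

end int

end

end Fermat.Agent.H33.Cft
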